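import Fermat.Agent.S59.MFree.Spec
import Fermat.Agent.S41.H460.DictA
import Fermat.Agent.S41.H585.PDLift
import Fermat.Agent.S41.H232.PDTransfer

/-!
# Row S59, block M-FREE — leaf (B) `CorSurjStatement` (helper714)

`cor : H_tt(Γ', A) → H_tt(Γ, A)` is onto, `Γ' = ker κ`.

Proof (`coord/S59-MFREE.md` §2 (B)), Manin dictionary of row S41: let `m : X → A` represent `y` (D1),
`π : X' → X` the projection (`X' = SL(2,ℤ) ⧸ Γ'`, `X = SL(2,ℤ) ⧸ Γ`), `s` a section of `π`, and
`m' := m ∘ π` on `s(X)`, `0` elsewhere.  Then `m'` represents some `x` (D3), torsion-trivial (D3'), the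
push-forward of `m'` is `m` and represents `cor x` (TR-2); two classes with the same Manin
representative are equal (D2'', D2').
-/

set_option autoImplicit false

namespace Fermat.Agent.S59.MFree.H714

open CongruenceSubgroup Matrix.SpecialLinearGroup
open Fermat.Agent.S41.Spec Fermat.Agent.S41
open scoped MatrixGroups

universe u

/-- `ker κ` has finite index in `SL(2,ℤ)`. -/
theorem finiteIndex_kerSub {Γ : Subgroup SL(2, ℤ)} [Γ.FiniteIndex] {D : Type} [Group D] [Finite D]
    (κ : Γ →* D) : (kerSub κ).FiniteIndex := by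
  have : Finite κ.range := inferInstance
  have : κ.ker.FiniteIndex := Subgroup.finiteIndex_ker κ
  refine ⟨?_⟩
  unfold kerSub
  rw [Subgroup.index_map_subtype]
  exact mul_ne_zero (Subgroup.FiniteIndex.index_ne_zero) (Subgroup.FiniteIndex.index_ne_zero)

/-- The push-forward of a function supported on a section. -/
theorem finsum_section {X' X : Type*} {A : Type*} [AddCommGroup A] (π : X' → X) (s : X → X')
    (hs : ∀ x, π (s x) = x) (m : X → A) (m' : X' → A) (h1 : ∀ x, m' (s x) = m x)
    (h2 : ∀ x', x' ≠ s (π x') → m' x' = 0) (x₀ : X) :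
    (∑ᶠ (x' : X') (_ : π x' = x₀), m' x') = m x₀ := by
  classical
  rw [finsum_eq_single _ (s x₀)]
  · rw [finsum_eq_if, if_pos (hs x₀), h1]
  · intro x' hx'
    rw [finsum_eq_if]
    by_cases h : π x' = x₀
    · rw [if_pos h]
      apply h2
      intro h'
      apply hx'
      rw [h', h]
    · rw [if_neg h]

/-- **(B)** `cor` is onto on torsion-trivial classes. -/
theorem corSurj : CorSurjStatement.{u} := by
  intro Γ _ D _ _ κ hneg A _ y hy
  classical
  have hle : kerSub κ ≤ Γ := kerSub_le κ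
  have hfi : (kerSub κ).FiniteIndex := finiteIndex_kerSub κ
  have hnegΓ : (-1 : SL(2, ℤ)) ∈ Γ := hle hneg
  obtain ⟨m, hm⟩ := H460.maninRepExists Γ hnegΓ A y hy
  -- a section of the projection
  have hπ : Function.Surjective (Subgroup.quotientMapOfLE hle :
      SL(2, ℤ) ⧸ kerSub κ → SL(2, ℤ) ⧸ Γ) := by
    intro x
    induction x using QuotientGroup.induction_on with
    | H g => exact ⟨(g : SL(2, ℤ) ⧸ kerSub κ), rfl⟩
  let s : SL(2, ℤ) ⧸ Γ → SL(2, ℤ) ⧸ kerSub κ := Function.surjInv hπ
  have hs : ∀ x, Subgroup.quotientMapOfLE hle (s x) = x := Function.surjInv_eq hπ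
  let m' : SL(2, ℤ) ⧸ kerSub κ → A := fun x' =>
    if x' = s (Subgroup.quotientMapOfLE hle x') then m (Subgroup.quotientMapOfLE hle x') else 0
  obtain ⟨x, hx⟩ := H585.maninRepRealize (kerSub κ) hneg A m'
  have hxt : IsTorsionTrivial x := H585.maninRepTorsionU (kerSub κ) hneg A x m' hx
  refine ⟨x, hxt, ?_⟩
  have hcor := H232.maninRepCores (kerSub κ) Γ hle A x m' hx
  have hpush : (fun x₀ : SL(2, ℤ) ⧸ Γ =>
      ∑ᶠ (x' : SL(2, ℤ) ⧸ kerSub κ) (_ : Subgroup.quotientMapOfLE hle x' = x₀), m' x') = m := by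
    funext x₀
    refine finsum_section (Subgroup.quotientMapOfLE hle) s hs m m' (fun x => ?_)
      (fun x' hx' => ?_) x₀
    · show (if s x = s (Subgroup.quotientMapOfLE hle (s x)) then
        m (Subgroup.quotientMapOfLE hle (s x)) else 0) = m x
      rw [hs, if_pos rfl]
    · show (if x' = s (Subgroup.quotientMapOfLE hle x') then
        m (Subgroup.quotientMapOfLE hle x') else 0) = 0
      rw [if_neg hx']
  rw [hpush] at hcor
  have hlin := (H460.maninRepLinear Γ A A (AddMonoidHom.id A) (cor κ x) y m m hcor hm).2.1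
  have hinv : IsInvariantSum Γ (m - m) :=
    ⟨0, 0, fun _ => rfl, fun _ => rfl, by rw [sub_self, add_zero]⟩
  have h0 := H460.maninRepInvariant Γ hnegΓ A (cor κ x - y) (m - m) hlin hinv
  exact sub_eq_zero.1 h0

end Fermat.Agent.S59.MFree.H714
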